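/-
helper86 — MW / DIV-C core, file (1): the abstract Galois setting.

`F` is a function field over `ℂ` with a semilinear action of `Aut(ℂ/ℚ)` (`act`), a Galois-fixed
non-constant function `x`, a Galois-fixed place `inf` (a pole of `x`) and equivariant separating
`ℂ`-linear "coefficient" functionals.  For an intermediate field `M` of `ℂ/ℚ`, an object `y`
(a place, a divisor, a class, a function) has *finite `M`-orbit* (`FinOrb M y`) if its orbit under
the automorphisms fixing `M` pointwise is finite.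

* `ValAt v f c` : the function `f` has the value `c` at the place `v`;
* `GalSetting.xv v` : the value of `x` at `v` (`0` at the poles of `x`), `xv (σ • v) = σ (xv v)`;
* `xv_mem_of_finOrb` (F3) : `FinOrb M v → xv v ∈ M` (`M` algebraically closed);
* `finOrb_of_xv_mem` (F4) : `xv v ∈ M → FinOrb M v`;
* the `FinOrb` calculus for divisors and classes;
* equivariance of Riemann–Roch spaces and of the jump sets.
-/
import Mathlib
import Fermat.Agent.Lib.FF.BasePoint
import Fermat.Agent.Lib.FF.RRFF1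
import Fermat.Agent.MW.Div.AutField
import Fermat.Prelude.Def_AlgebraicCurve_BaseChangeGalois

set_option autoImplicit false
set_option linter.style.haveILetI false
set_option linter.deprecated false

open AlgebraicCurve WithZero

noncomputable section

namespace Fermat.Agent.MW.Div.Gen

open Fermat.Agent.Lib.FF

/-! ### Values of functions at places -/

section Val

variable {K F : Type*} [Field K] [Field F] [Algebra K F]

/-- `f` has the value `c` at the place `v`. -/
def ValAt (v : Place K F) (f : F) (c : K) : Prop :=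
  v.adicValuation (f - algebraMap K F c) < 1

theorem adicValuation_algebraMap_eq_one (v : Place K F) {a : K} (ha : a ≠ 0) :
    v.adicValuation (algebraMap K F a) = 1 := by
  have h0 : algebraMap K F a ≠ 0 := fun h => ha ((algebraMap K F).injective (by simpa using h))
  rw [v.adicValuation_eq_exp_neg_ord h0, Fermat.Agent.S24.ord_algebraMap]
  simp

theorem ValAt.le_one {v : Place K F} {f : F} {c : K} (h : ValAt v f c) :
    v.adicValuation f ≤ 1 := by
  have h1 : f = (f - algebraMap K F c) + algebraMap K F c := by ring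
  rw [h1]
  exact (Valuation.map_add _ _ _).trans (max_le h.le (v.adicValuation_algebraMap_le_one c))

theorem valAt_algebraMap (v : Place K F) (c : K) : ValAt v (algebraMap K F c) c := by
  unfold ValAt
  rw [sub_self, map_zero]
  exact zero_lt_one

theorem valAt_zero (v : Place K F) : ValAt v (0 : F) (0 : K) := by
  simpa using valAt_algebraMap v (0 : K)

theorem valAt_one (v : Place K F) : ValAt v (1 : F) (1 : K) := by
  simpa using valAt_algebraMap v (1 : K)

theorem valAt_zero_iff {v : Place K F} {f : F} : ValAt v f 0 ↔ v.adicValuation f < 1 := by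
  unfold ValAt
  rw [map_zero, sub_zero]

theorem ValAt.unique {v : Place K F} {f : F} {c c' : K} (h : ValAt v f c) (h' : ValAt v f c') :
    c = c' := by
  by_contra hne
  have h1 : algebraMap K F (c - c') = (f - algebraMap K F c') - (f - algebraMap K F c) := by
    rw [map_sub]; ring
  have h2 : v.adicValuation (algebraMap K F (c - c')) < 1 := by
    rw [h1]
    exact (Valuation.map_sub _ _ _).trans_lt (max_lt h' h)
  rw [adicValuation_algebraMap_eq_one v (sub_ne_zero.mpr hne)] at h2
  exact lt_irrefl _ h2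

theorem ValAt.add {v : Place K F} {f g : F} {c d : K} (hf : ValAt v f c) (hg : ValAt v g d) :
    ValAt v (f + g) (c + d) := by
  unfold ValAt
  have h1 : f + g - algebraMap K F (c + d) = (f - algebraMap K F c) + (g - algebraMap K F d) := by
    rw [map_add]; ring
  rw [h1]
  exact (Valuation.map_add _ _ _).trans_lt (max_lt hf hg)

theorem ValAt.neg {v : Place K F} {f : F} {c : K} (hf : ValAt v f c) : ValAt v (-f) (-c) := by
  unfold ValAt
  have h1 : -f - algebraMap K F (-c) = -(f - algebraMap K F c) := by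
    rw [map_neg]; ring
  rw [h1, Valuation.map_neg]
  exact hf

theorem ValAt.sub {v : Place K F} {f g : F} {c d : K} (hf : ValAt v f c) (hg : ValAt v g d) :
    ValAt v (f - g) (c - d) := by
  simpa [sub_eq_add_neg] using hf.add hg.neg

theorem ValAt.mul {v : Place K F} {f g : F} {c d : K} (hf : ValAt v f c) (hg : ValAt v g d) :
    ValAt v (f * g) (c * d) := by
  unfold ValAt
  have h1 : f * g - algebraMap K F (c * d)
      = (f - algebraMap K F c) * g + algebraMap K F c * (g - algebraMap K F d) := by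
    rw [map_mul]; ring
  rw [h1]
  refine (Valuation.map_add _ _ _).trans_lt (max_lt ?_ ?_)
  · rw [map_mul]
    calc v.adicValuation (f - algebraMap K F c) * v.adicValuation g
        ≤ v.adicValuation (f - algebraMap K F c) * 1 := by gcongr; exact hg.le_one
      _ < 1 := by rw [mul_one]; exact hf
  · rw [map_mul]
    calc v.adicValuation (algebraMap K F c) * v.adicValuation (g - algebraMap K F d)
        ≤ 1 * v.adicValuation (g - algebraMap K F d) := by
          gcongr; exact v.adicValuation_algebraMap_le_one c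
      _ < 1 := by rw [one_mul]; exact hg

theorem ValAt.smul {v : Place K F} {f : F} {c : K} (a : K) (hf : ValAt v f c) :
    ValAt v (a • f) (a * c) := by
  rw [Algebra.smul_def]
  exact (valAt_algebraMap v a).mul hf

theorem ValAt.sum {v : Place K F} {ι : Type*} (s : Finset ι) (f : ι → F) (c : ι → K)
    (h : ∀ i ∈ s, ValAt v (f i) (c i)) : ValAt v (∑ i ∈ s, f i) (∑ i ∈ s, c i) := by
  classical
  induction s using Finset.induction_on with
  | empty => simpa using valAt_zero v
  | insert a s ha ih =>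
    rw [Finset.sum_insert ha, Finset.sum_insert ha]
    exact (h a (Finset.mem_insert_self a s)).add
      (ih fun i hi => h i (Finset.mem_insert_of_mem hi))

/-- At a place with residue field `K`, every integral function has a value. -/
theorem exists_valAt {v : Place K F} (hv : RR.ResK v) {f : F} (hf : v.adicValuation f ≤ 1) :
    ∃ c : K, ValAt v f c := by
  obtain ⟨c, hc⟩ := hv ⟨f, RR.mem_of_val_le_one v hf⟩
  refine ⟨c, ?_⟩
  have h2 := RR.val_le_exp_neg_one_of_mem_maximalIdeal v _ hc
  have h4 : ((⟨f, RR.mem_of_val_le_one v hf⟩ - algebraMap K v.toValuationSubring c :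
      v.toValuationSubring) : F) = f - algebraMap K F c := rfl
  rw [h4] at h2
  exact h2.trans_lt (by rw [← exp_zero]; exact exp_lt_exp.mpr (by norm_num))

/-- A function with a nonzero value is a unit. -/
theorem ValAt.adicValuation_eq_one {v : Place K F} {f : F} {c : K} (hf : ValAt v f c)
    (hc : c ≠ 0) : v.adicValuation f = 1 := by
  have h1 : f = (f - algebraMap K F c) + algebraMap K F c := by ring
  have h2 : v.adicValuation (f - algebraMap K F c) < v.adicValuation (algebraMap K F c) := by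
    rw [adicValuation_algebraMap_eq_one v hc]; exact hf
  rw [h1, Valuation.map_add_eq_of_lt_right _ h2, adicValuation_algebraMap_eq_one v hc]

/-- A unit has a nonzero value. -/
theorem ValAt.ne_zero_of_adicValuation_eq_one {v : Place K F} {f : F} {c : K} (hf : ValAt v f c)
    (h1 : v.adicValuation f = 1) : c ≠ 0 := by
  rintro rfl
  rw [valAt_zero_iff, h1] at hf
  exact lt_irrefl _ hf

end Val

/-! ### Semilinear automorphisms: valuations, values, Riemann–Roch spaces -/

section Semilinear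

variable {K F : Type*} [Field K] [Field F] [Algebra K F]

theorem smul_eq_zero_iff' (g : SemilinearAut K F) (f : F) : g • f = 0 ↔ f = 0 := by
  constructor
  · intro h
    have := congrArg (fun z => g⁻¹ • z) h
    simpa using this
  · rintro rfl
    exact smul_zero g

theorem adicValuation_smul (g : SemilinearAut K F) (v : Place K F) (f : F) :
    (g • v).adicValuation (g • f) = v.adicValuation f := by
  rcases eq_or_ne f 0 with rfl | hf
  · rw [smul_zero, map_zero, map_zero]
  · have hgf : g • f ≠ 0 := fun h => hf ((smul_eq_zero_iff' g f).mp h)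
    rw [(g • v).adicValuation_eq_exp_neg_ord hgf, v.adicValuation_eq_exp_neg_ord hf,
      SemilinearAut.ord_smul]

theorem adicValuation_smul' (g : SemilinearAut K F) (v : Place K F) (f : F) :
    (g • v).adicValuation f = v.adicValuation (g⁻¹ • f) := by
  have h := adicValuation_smul g v (g⁻¹ • f)
  rwa [smul_inv_smul] at h

theorem valAt_smul {g : SemilinearAut K F} {v : Place K F} {f : F} {c : K} (h : ValAt v f c) :
    ValAt (g • v) (g • f) (SemilinearAut.baseAut g c) := by
  unfold ValAt at h ⊢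
  have h1 : g • f - algebraMap K F (SemilinearAut.baseAut g c) = g • (f - algebraMap K F c) := by
    rw [smul_sub, SemilinearAut.smul_algebraMap]
  rw [h1, adicValuation_smul]
  exact h

/-- `f ∈ L(D) ↔ g • f ∈ L(g • D)`. -/
theorem smul_mem_L_iff (g : SemilinearAut K F) (D : Divisor K F) (f : F) :
    g • f ∈ riemannRochSpace (g • D) ↔ f ∈ riemannRochSpace D := by
  rw [RR.mem_L, RR.mem_L]
  constructor
  · intro h v
    have := h (g • v)
    rwa [adicValuation_smul, SemilinearAut.divisor_smul_apply_smul] at this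
  · intro h w
    have := h (g⁻¹ • w)
    have h2 := adicValuation_smul g (g⁻¹ • w) f
    rw [smul_inv_smul] at h2
    rw [SemilinearAut.divisor_smul_apply, h2]
    exact this

theorem smul_addPl (g : SemilinearAut K F) (D : Divisor K F) (Q : Place K F) :
    g • RR.addPl D Q = RR.addPl (g • D) (g • Q) := by
  unfold RR.addPl
  rw [smul_add, SemilinearAut.smul_single]

/-- `L(D) = L(D') ↔ L(g • D) = L(g • D')`. -/
theorem L_smul_eq_iff (g : SemilinearAut K F) (D D' : Divisor K F) :
    riemannRochSpace (g • D) = riemannRochSpace (g • D') ↔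
      riemannRochSpace D = riemannRochSpace D' := by
  constructor
  · intro h
    ext f
    rw [← smul_mem_L_iff g D f, ← smul_mem_L_iff g D' f, h]
  · intro h
    ext f
    have h1 := smul_mem_L_iff g D (g⁻¹ • f)
    have h2 := smul_mem_L_iff g D' (g⁻¹ • f)
    rw [smul_inv_smul] at h1 h2
    rw [h1, h2, h]

/-- The jump sets are equivariant. -/
theorem smul_mem_jumpSet_iff (g : SemilinearAut K F) (E : Divisor K F) (Q : Place K F) :
    g • Q ∈ RR.jumpSet (g • E) ↔ Q ∈ RR.jumpSet E := by
  unfold RR.jumpSet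
  simp only [Set.mem_setOf_eq, ne_eq]
  rw [← smul_addPl, L_smul_eq_iff]

end Semilinear

/-! ### The Galois setting -/

/-- The abstract Galois setting: a function field `F/ℂ` with a semilinear action of `Aut(ℂ/ℚ)`,
a fixed non-constant function `x`, a fixed place `inf` (a pole of `x`) and equivariant separating
coefficient functionals. -/
structure GalSetting (F : Type) [Field F] [Algebra ℂ F] : Type where
  /-- the semilinear action -/
  act : (ℂ ≃ₐ[ℚ] ℂ) →* SemilinearAut ℂ F
  baseAut_act : ∀ (σ : ℂ ≃ₐ[ℚ] ℂ) (a : ℂ), SemilinearAut.baseAut (act σ) a = σ a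
  /-- the coordinate function -/
  x : F
  isFF1 : IsFF1 ℂ F x
  act_x : ∀ σ : ℂ ≃ₐ[ℚ] ℂ, act σ • x = x
  /-- the base place -/
  inf : Place ℂ F
  act_inf : ∀ σ : ℂ ≃ₐ[ℚ] ℂ, act σ • inf = inf
  inf_pole : inf.ord x < 0
  /-- the coefficient functionals -/
  coeff : ℤ → F →ₗ[ℂ] ℂ
  coeff_act : ∀ (σ : ℂ ≃ₐ[ℚ] ℂ) (n : ℤ) (f : F), coeff n (act σ • f) = σ (coeff n f)
  coeff_sep : ∀ f : F, (∀ n, coeff n f = 0) → f = 0

/-- `σ` fixes the intermediate field `M` pointwise. -/
def Fixes (M : IntermediateField ℚ ℂ) (σ : ℂ ≃ₐ[ℚ] ℂ) : Prop := ∀ m ∈ M, σ m = m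

theorem Fixes.one (M : IntermediateField ℚ ℂ) : Fixes M 1 := fun _ _ => rfl

theorem Fixes.mul {M : IntermediateField ℚ ℂ} {σ τ : ℂ ≃ₐ[ℚ] ℂ} (hσ : Fixes M σ)
    (hτ : Fixes M τ) : Fixes M (σ * τ) := fun m hm => by
  show σ (τ m) = m
  rw [hτ m hm, hσ m hm]

theorem Fixes.inv {M : IntermediateField ℚ ℂ} {σ : ℂ ≃ₐ[ℚ] ℂ} (hσ : Fixes M σ) :
    Fixes M σ⁻¹ := fun m hm => by
  have h : σ⁻¹ (σ m) = m := σ.symm_apply_apply m
  rw [hσ m hm] at h
  exact h

theorem Fixes.mono {M M' : IntermediateField ℚ ℂ} (h : M ≤ M') {σ : ℂ ≃ₐ[ℚ] ℂ}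
    (hσ : Fixes M' σ) : Fixes M σ := fun m hm => hσ m (h hm)

/-- Finite orbit of a complex number under the automorphisms fixing `M`. -/
def FinOrbC (M : IntermediateField ℚ ℂ) (a : ℂ) : Prop :=
  {b : ℂ | ∃ σ : ℂ ≃ₐ[ℚ] ℂ, (∀ m ∈ M, σ m = m) ∧ σ a = b}.Finite

/-- (A') A complex number with finite orbit under `Aut(ℂ/M)`, `M` algebraically closed, lies
in `M`. -/
theorem mem_of_finOrbC (M : IntermediateField ℚ ℂ) [IsAlgClosed M] {a : ℂ} (h : FinOrbC M a) :
    a ∈ M :=
  AutField.mem_of_finite_orbit M a h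

namespace GalSetting

variable {F : Type} [Field F] [Algebra ℂ F] (S : GalSetting F)

theorem act_algebraMap (σ : ℂ ≃ₐ[ℚ] ℂ) (a : ℂ) :
    S.act σ • algebraMap ℂ F a = algebraMap ℂ F (σ a) := by
  rw [SemilinearAut.smul_algebraMap, S.baseAut_act]

theorem valAt_act {σ : ℂ ≃ₐ[ℚ] ℂ} {v : Place ℂ F} {f : F} {c : ℂ} (h : ValAt v f c) :
    ValAt (S.act σ • v) (S.act σ • f) (σ c) := by
  have := valAt_smul (g := S.act σ) h
  rwa [S.baseAut_act] at this

/-! #### Finite orbits -/

section FinOrb

variable {X : Type*} [MulAction (SemilinearAut ℂ F) X]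

/-- The object `y` has finite orbit under the automorphisms fixing `M`. -/
def FinOrb (M : IntermediateField ℚ ℂ) (y : X) : Prop :=
  {y' : X | ∃ σ : ℂ ≃ₐ[ℚ] ℂ, Fixes M σ ∧ S.act σ • y = y'}.Finite

variable {S}

theorem FinOrb.mono {M M' : IntermediateField ℚ ℂ} (h : M ≤ M') {y : X} (hy : S.FinOrb M y) :
    S.FinOrb M' y := by
  refine Set.Finite.subset hy ?_
  rintro _ ⟨σ, hσ, rfl⟩
  exact ⟨σ, hσ.mono h, rfl⟩

theorem finOrb_of_forall_mem {M : IntermediateField ℚ ℂ} {y : X} {T : Set X} (hT : T.Finite)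
    (h : ∀ σ : ℂ ≃ₐ[ℚ] ℂ, Fixes M σ → S.act σ • y ∈ T) : S.FinOrb M y := by
  refine Set.Finite.subset hT ?_
  rintro _ ⟨σ, hσ, rfl⟩
  exact h σ hσ

theorem finOrb_of_fixed {M : IntermediateField ℚ ℂ} {y : X}
    (h : ∀ σ : ℂ ≃ₐ[ℚ] ℂ, Fixes M σ → S.act σ • y = y) : S.FinOrb M y :=
  finOrb_of_forall_mem (Set.finite_singleton y) fun σ hσ => h σ hσ

theorem FinOrb.map {M : IntermediateField ℚ ℂ} {Y : Type*} [MulAction (SemilinearAut ℂ F) Y]
    (φ : X → Y) (hφ : ∀ σ : ℂ ≃ₐ[ℚ] ℂ, Fixes M σ → ∀ y, φ (S.act σ • y) = S.act σ • φ y)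
    {y : X} (hy : S.FinOrb M y) : S.FinOrb M (φ y) := by
  refine Set.Finite.subset (hy.image φ) ?_
  rintro _ ⟨σ, hσ, rfl⟩
  exact ⟨S.act σ • y, ⟨σ, hσ, rfl⟩, hφ σ hσ y⟩

theorem FinOrb.map₂ {M : IntermediateField ℚ ℂ} {Y Z : Type*} [MulAction (SemilinearAut ℂ F) Y]
    [MulAction (SemilinearAut ℂ F) Z] (φ : X → Y → Z)
    (hφ : ∀ σ : ℂ ≃ₐ[ℚ] ℂ, Fixes M σ → ∀ y z, φ (S.act σ • y) (S.act σ • z) = S.act σ • φ y z)
    {y : X} {z : Y} (hy : S.FinOrb M y) (hz : S.FinOrb M z) : S.FinOrb M (φ y z) := by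
  refine Set.Finite.subset (Set.Finite.image2 φ hy hz) ?_
  rintro _ ⟨σ, hσ, rfl⟩
  exact ⟨S.act σ • y, ⟨σ, hσ, rfl⟩, S.act σ • z, ⟨σ, hσ, rfl⟩, hφ σ hσ y z⟩

/-- A conjugate (by an automorphism fixing `M`) of an object with finite orbit has finite orbit. -/
theorem FinOrb.act {M : IntermediateField ℚ ℂ} {y : X} (hy : S.FinOrb M y) {τ : ℂ ≃ₐ[ℚ] ℂ}
    (hτ : Fixes M τ) : S.FinOrb M (S.act τ • y) := by
  refine Set.Finite.subset hy ?_
  rintro _ ⟨σ, hσ, rfl⟩
  exact ⟨σ * τ, hσ.mul hτ, by rw [map_mul, mul_smul]⟩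

end FinOrb

section FinOrbAdd

variable {S}
variable {X : Type*} [AddCommGroup X] [DistribMulAction (SemilinearAut ℂ F) X]

theorem FinOrb.add {M : IntermediateField ℚ ℂ} {y z : X} (hy : S.FinOrb M y)
    (hz : S.FinOrb M z) : S.FinOrb M (y + z) :=
  FinOrb.map₂ (fun a b => a + b) (fun σ _ a b => (smul_add (S.act σ) a b).symm) hy hz

theorem FinOrb.neg {M : IntermediateField ℚ ℂ} {y : X} (hy : S.FinOrb M y) : S.FinOrb M (-y) :=
  FinOrb.map (fun a => -a) (fun σ _ a => (smul_neg (S.act σ) a).symm) hy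

theorem FinOrb.sub {M : IntermediateField ℚ ℂ} {y z : X} (hy : S.FinOrb M y)
    (hz : S.FinOrb M z) : S.FinOrb M (y - z) := by
  rw [sub_eq_add_neg]
  exact hy.add hz.neg

theorem finOrb_zero {M : IntermediateField ℚ ℂ} : S.FinOrb M (0 : X) :=
  finOrb_of_fixed fun σ _ => smul_zero (S.act σ)

theorem FinOrb.nsmul {M : IntermediateField ℚ ℂ} {y : X} (hy : S.FinOrb M y) (n : ℕ) :
    S.FinOrb M (n • y) :=
  FinOrb.map (fun a => n • a) (fun σ _ a => (smul_comm (S.act σ) n a).symm) hy

/-- If the fibres of `z ↦ n • z` are finite, an `n`-th root of an object with finite orbit has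
finite orbit. -/
theorem FinOrb.of_nsmul {M : IntermediateField ℚ ℂ} {n : ℕ}
    (htor : ∀ c : X, {z : X | n • z = c}.Finite) {y : X} (hy : S.FinOrb M (n • y)) :
    S.FinOrb M y := by
  have hfin : (⋃ c ∈ {y' : X | ∃ σ : ℂ ≃ₐ[ℚ] ℂ, Fixes M σ ∧ S.act σ • (n • y) = y'},
      {z : X | n • z = c}).Finite := Set.Finite.biUnion hy fun c _ => htor c
  refine finOrb_of_forall_mem hfin fun σ hσ => ?_
  simp only [Set.mem_iUnion, Set.mem_setOf_eq, exists_prop]
  exact ⟨S.act σ • (n • y), ⟨σ, hσ, rfl⟩, (smul_comm (S.act σ) n y).symm⟩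

end FinOrbAdd

/-! #### The value of `x` at a place -/

/-- The value of the coordinate function `x` at the place `v` (`0` at the poles of `x`). -/
def xv (v : Place ℂ F) : ℂ :=
  if h : v.adicValuation S.x ≤ 1 then Classical.choose (exists_valAt (S.isFF1.resK v) h) else 0

theorem valAt_xv {v : Place ℂ F} (h : v.adicValuation S.x ≤ 1) : ValAt v S.x (S.xv v) := by
  unfold xv
  rw [dif_pos h]
  exact Classical.choose_spec (exists_valAt (S.isFF1.resK v) h)

theorem xv_of_pole {v : Place ℂ F} (h : ¬ v.adicValuation S.x ≤ 1) : S.xv v = 0 := by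
  unfold xv
  rw [dif_neg h]

theorem xv_eq_of_valAt {v : Place ℂ F} {c : ℂ} (h : ValAt v S.x c) : S.xv v = c :=
  (S.valAt_xv h.le_one).unique h

theorem adicValuation_act_x (σ : ℂ ≃ₐ[ℚ] ℂ) (v : Place ℂ F) :
    (S.act σ • v).adicValuation S.x = v.adicValuation S.x := by
  have h := adicValuation_smul (S.act σ) v S.x
  rwa [S.act_x] at h

/-- The value of `x` is equivariant. -/
theorem xv_act (σ : ℂ ≃ₐ[ℚ] ℂ) (v : Place ℂ F) : S.xv (S.act σ • v) = σ (S.xv v) := by
  by_cases h : v.adicValuation S.x ≤ 1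
  · have h1 := S.valAt_act (σ := σ) (S.valAt_xv h)
    rw [S.act_x] at h1
    exact S.xv_eq_of_valAt h1
  · have h' : ¬ (S.act σ • v).adicValuation S.x ≤ 1 := by rwa [S.adicValuation_act_x]
    rw [S.xv_of_pole h, S.xv_of_pole h', map_zero]

theorem inf_isPole : ¬ S.inf.adicValuation S.x ≤ 1 :=
  S.inf.not_adicValuation_le_one_iff.mpr S.inf_pole

theorem xv_inf : S.xv S.inf = 0 := S.xv_of_pole S.inf_isPole

theorem x_sub_ne_zero (c : ℂ) : S.x - algebraMap ℂ F c ≠ 0 := by
  intro h
  have hx : S.x = algebraMap ℂ F c := sub_eq_zero.mp h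
  exact S.isFF1.transcendental (hx ▸ isAlgebraic_algebraMap c)

/-- The poles of `x` are finite in number. -/
theorem finite_poles : {v : Place ℂ F | ¬ v.adicValuation S.x ≤ 1}.Finite := by
  obtain ⟨hfin, -⟩ := S.isFF1.poles_le
  refine hfin.subset fun v hv => ?_
  exact v.not_adicValuation_le_one_iff.mp hv

/-- The places where `x` takes the value `c` are finite in number. -/
theorem finite_valAt (c : ℂ) : {v : Place ℂ F | ValAt v S.x c}.Finite := by
  have := S.isFF1.hasPrincipalDivisors
  obtain ⟨D, hD, -⟩ := HasPrincipalDivisors.exists_divisor (K := ℂ) _ (S.x_sub_ne_zero c)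
  refine D.support.finite_toSet.subset fun v hv => ?_
  rw [Finset.mem_coe, Finsupp.mem_support_iff, hD v]
  have h1 : v.adicValuation (S.x - algebraMap ℂ F c) < 1 := hv
  rw [v.adicValuation_eq_exp_neg_ord (S.x_sub_ne_zero c), ← exp_zero, exp_lt_exp] at h1
  omega

/-- The fibres of `xv` are finite. -/
theorem finite_xv_eq (c : ℂ) : {v : Place ℂ F | S.xv v = c}.Finite := by
  refine (S.finite_poles.union (S.finite_valAt c)).subset fun v hv => ?_
  by_cases h : v.adicValuation S.x ≤ 1
  · right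
    have h1 := S.valAt_xv h
    rw [show S.xv v = c from hv] at h1
    exact h1
  · left
    exact h

/-- **(F3)** A place with finite `M`-orbit has its `x`-value in `M` (`M` algebraically closed). -/
theorem xv_mem_of_finOrb (M : IntermediateField ℚ ℂ) [IsAlgClosed M] {v : Place ℂ F}
    (h : S.FinOrb M v) : S.xv v ∈ M := by
  apply mem_of_finOrbC M
  refine Set.Finite.subset (h.image S.xv) ?_
  rintro _ ⟨σ, hσ, rfl⟩
  exact ⟨S.act σ • v, ⟨σ, hσ, rfl⟩, S.xv_act σ v⟩

/-- **(F4)** A place whose `x`-value lies in `M` has finite `M`-orbit. -/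
theorem finOrb_of_xv_mem {M : IntermediateField ℚ ℂ} {v : Place ℂ F} (h : S.xv v ∈ M) :
    S.FinOrb M v :=
  finOrb_of_forall_mem (S.finite_xv_eq (S.xv v)) fun σ hσ => by
    show S.xv (S.act σ • v) = S.xv v
    rw [S.xv_act, hσ _ h]

/-! #### Finite orbits of divisors and classes -/

theorem finOrb_single {M : IntermediateField ℚ ℂ} {v : Place ℂ F} (h : S.FinOrb M v) (n : ℤ) :
    S.FinOrb M (Finsupp.single v n : Divisor ℂ F) :=
  FinOrb.map (fun w => (Finsupp.single w n : Divisor ℂ F))
    (fun σ _ w => (SemilinearAut.smul_single (S.act σ) w n).symm) h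

/-- A divisor supported on places with finite orbit has finite orbit. -/
theorem finOrb_divisor {M : IntermediateField ℚ ℂ} (D : Divisor ℂ F)
    (h : ∀ v, D v ≠ 0 → S.FinOrb M v) : S.FinOrb M D := by
  classical
  induction D using Finsupp.induction with
  | zero => exact finOrb_zero
  | single_add v n D hv hn ih =>
    have hvD : D v = 0 := Finsupp.notMem_support_iff.mp hv
    refine FinOrb.add (S.finOrb_single (h v ?_) n) (ih fun w hw => h w ?_)
    · rw [Finsupp.add_apply, Finsupp.single_eq_same, hvD, add_zero]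
      exact hn
    · have hwv : w ≠ v := fun hwv => hw (hwv ▸ hvD)
      rw [Finsupp.add_apply, Finsupp.single_eq_of_ne hwv, zero_add]
      exact hw

/-- The points of a divisor with finite orbit have finite orbit. -/
theorem FinOrb.of_divisor {M : IntermediateField ℚ ℂ} {D : Divisor ℂ F} (hD : S.FinOrb M D)
    {v : Place ℂ F} (hv : D v ≠ 0) : S.FinOrb M v := by
  have hfin : (⋃ D' ∈ {D' : Divisor ℂ F | ∃ σ : ℂ ≃ₐ[ℚ] ℂ, Fixes M σ ∧ S.act σ • D = D'},
      ((D' : Divisor ℂ F).support : Set (Place ℂ F))).Finite :=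
    Set.Finite.biUnion hD fun D' _ => D'.support.finite_toSet
  refine finOrb_of_forall_mem hfin fun σ hσ => ?_
  simp only [Set.mem_iUnion, Set.mem_setOf_eq, exists_prop, Finset.mem_coe,
    Finsupp.mem_support_iff]
  exact ⟨S.act σ • D, ⟨σ, hσ, rfl⟩, by rwa [SemilinearAut.divisor_smul_apply_smul]⟩

/-- The class of a degree-zero divisor with finite orbit has finite orbit. -/
theorem finOrb_mk {M : IntermediateField ℚ ℂ} (D : Divisor.degZero (K := ℂ) (F := F))
    (h : S.FinOrb M (D : Divisor ℂ F)) : S.FinOrb M (Pic0.mk D) := by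
  classical
  let φ : Divisor ℂ F → Pic0 ℂ F := fun D' =>
    if h : D' ∈ Divisor.degZero (K := ℂ) (F := F) then Pic0.mk ⟨D', h⟩ else 0
  refine Set.Finite.subset (h.image φ) ?_
  rintro _ ⟨σ, hσ, rfl⟩
  refine ⟨S.act σ • (D : Divisor ℂ F), ⟨σ, hσ, rfl⟩, ?_⟩
  have hmem : S.act σ • (D : Divisor ℂ F) ∈ Divisor.degZero (K := ℂ) (F := F) :=
    SemilinearAut.smul_mem_degZero _ D.2
  show (if h : S.act σ • (D : Divisor ℂ F) ∈ Divisor.degZero (K := ℂ) (F := F)
    then Pic0.mk ⟨S.act σ • (D : Divisor ℂ F), h⟩ else 0) = S.act σ • Pic0.mk D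
  rw [dif_pos hmem, SemilinearAut.pic0_smul_mk]
  rfl

end GalSetting

end Fermat.Agent.MW.Div.Gen
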